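import Fermat.Agent.S26.SpecPic

/-!
# Row S26, subtask LS:DIV (helper164): `Stmt.LSDiv`, `Stmt.CDivOps`, `Stmt.LSDivOps`

Cartier divisors as families of local generators in the function field:
* `lsDiv`     : a base point free system has a divisor (openness of `GenAt`);
* `cDivOps`   : powers, products and pull-backs of Cartier divisors exist;
* `lsDivOps`  : the divisor of a system is compatible with powers and pull-backs.

Key tools: `exists_open_forall_mem_range` (a rational function regular at `x` is regular near `x`)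
and `ffMap_algebraMap` (`ffMap` restricted to the local ring at `φ x` is the stalk map at `x`).
-/

set_option autoImplicit false
universe u

open CategoryTheory CategoryTheory.Limits AlgebraicGeometry NeronModelInfra GoodReductionJacobian

namespace Fermat.Agent.S26.H164

noncomputable section

/-! ## Pure algebra: spans of singletons -/

section Alg

variable {R K : Type*} [CommRing R] [Field K] [Algebra R K]

lemma span_singleton_eq_of_smul {f g : K} (a b : R) (h1 : f = a • g) (h2 : g = b • f) :
    Submodule.span R {f} = Submodule.span R {g} := by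
  apply le_antisymm
  · rw [Submodule.span_singleton_le_iff_mem]
    exact Submodule.mem_span_singleton.mpr ⟨a, h1.symm⟩
  · rw [Submodule.span_singleton_le_iff_mem]
    exact Submodule.mem_span_singleton.mpr ⟨b, h2.symm⟩

lemma exists_smul_of_span_singleton_eq {f g : K}
    (h : Submodule.span R {f} = Submodule.span R {g}) :
    (∃ a : R, f = a • g) ∧ ∃ b : R, g = b • f := by
  constructor
  · have : f ∈ Submodule.span R {g} := h ▸ Submodule.mem_span_singleton_self f
    obtain ⟨a, ha⟩ := Submodule.mem_span_singleton.mp this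
    exact ⟨a, ha.symm⟩
  · have : g ∈ Submodule.span R {f} := h.symm ▸ Submodule.mem_span_singleton_self g
    obtain ⟨b, hb⟩ := Submodule.mem_span_singleton.mp this
    exact ⟨b, hb.symm⟩

end Alg

/-! ## Stalks inside the function field -/

section Stalk

variable {X : Scheme.{u}} [IsIntegral X]

lemma algebraMap_stalk_injective (x : X) :
    Function.Injective (algebraMap (X.presheaf.stalk x) X.functionField) :=
  IsFractionRing.injective _ _

/-- A rational function which is regular at `x` is regular on a neighbourhood of `x`. -/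
lemma exists_open_forall_mem_range {x : X} {a : X.functionField}
    (ha : a ∈ (algebraMap (X.presheaf.stalk x) X.functionField).range) :
    ∃ U : X.Opens, x ∈ U ∧
      ∀ y ∈ U, a ∈ (algebraMap (X.presheaf.stalk y) X.functionField).range := by
  obtain ⟨s, rfl⟩ := ha
  obtain ⟨U, hxU, t, rfl⟩ := X.presheaf.exists_germ_eq s
  refine ⟨U, hxU, fun y hy => ⟨X.presheaf.germ U y hy t, ?_⟩⟩
  have : Nonempty U := ⟨⟨x, hxU⟩⟩
  rw [Scheme.algebraMap_germ_eq_germToFunctionField,
    Scheme.algebraMap_germ_eq_germToFunctionField]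

/-- Finite version. -/
lemma exists_open_forall_mem_range_fin {x : X} {n : ℕ} (a : Fin n → X.functionField)
    (ha : ∀ i, a i ∈ (algebraMap (X.presheaf.stalk x) X.functionField).range) :
    ∃ U : X.Opens, x ∈ U ∧
      ∀ y ∈ U, ∀ i, a i ∈ (algebraMap (X.presheaf.stalk y) X.functionField).range := by
  choose U hxU hU using fun i => exists_open_forall_mem_range (ha i)
  refine ⟨⟨⋂ i, (U i : Set X), isOpen_iInter_of_finite fun i => (U i).isOpen⟩, ?_, ?_⟩
  · exact Set.mem_iInter.mpr fun i => hxU i
  · intro y hy i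
    exact hU i y (Set.mem_iInter.mp hy i)

end Stalk

/-! ## `ffMap` and stalk maps -/

section FF

variable {X Y : Scheme.{u}} [IsIntegral X] [IsIntegral Y]

/-- `ffMap φ` restricted to the local ring of `Y` at `φ x` is the stalk map of `φ` at `x`. -/
lemma ffMap_algebraMap (φ : X ⟶ Y) (h : φ (genericPoint X) = genericPoint Y) (x : X)
    (s : Y.presheaf.stalk (φ x)) :
    ffMap φ h (algebraMap (Y.presheaf.stalk (φ x)) Y.functionField s) =
      algebraMap (X.presheaf.stalk x) X.functionField (φ.stalkMap x s) := by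
  have hx : genericPoint X ⤳ x := (genericPoint_spec X).specializes trivial
  have key := Scheme.Hom.stalkSpecializes_stalkMap_apply φ (genericPoint X) x hx s
  simp only [ffMap, RingHom.algebraMap_toAlgebra, CommRingCat.hom_comp, RingHom.comp_apply,
    TopCat.Presheaf.stalkCongr_hom]
  rw [← key]
  congr 1
  exact TopCat.Presheaf.stalkSpecializes_comp_apply _ _ _ s

lemma ffMap_smul (φ : X ⟶ Y) (h : φ (genericPoint X) = genericPoint Y) (x : X)
    (s : Y.presheaf.stalk (φ x)) (g : Y.functionField) :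
    ffMap φ h (s • g) = (φ.stalkMap x s) • ffMap φ h g := by
  rw [Algebra.smul_def, Algebra.smul_def, map_mul, ffMap_algebraMap]

lemma ffMap_ne_zero (φ : X ⟶ Y) (h : φ (genericPoint X) = genericPoint Y) {g : Y.functionField}
    (hg : g ≠ 0) : ffMap φ h g ≠ 0 :=
  (map_ne_zero_iff _ (ffMap φ h).injective).mpr hg

end FF

/-! ## Transport of equalities of principal fractional ideals -/

section Span1

variable {X Y : Scheme.{u}} [IsIntegral X] [IsIntegral Y]

lemma span1_pow {x : X} {f g : X.functionField} (h : LS.span1 f x = LS.span1 g x) (r : ℕ) :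
    LS.span1 (f ^ r) x = LS.span1 (g ^ r) x := by
  obtain ⟨⟨a, ha⟩, ⟨b, hb⟩⟩ := exists_smul_of_span_singleton_eq h
  refine span_singleton_eq_of_smul (a ^ r) (b ^ r) ?_ ?_
  · conv_lhs => rw [ha]
    rw [Algebra.smul_def, Algebra.smul_def, mul_pow, map_pow]
  · conv_lhs => rw [hb]
    rw [Algebra.smul_def, Algebra.smul_def, mul_pow, map_pow]

lemma span1_mul {x : X} {f g f' g' : X.functionField} (h : LS.span1 f x = LS.span1 g x)
    (h' : LS.span1 f' x = LS.span1 g' x) :
    LS.span1 (f * f') x = LS.span1 (g * g') x := by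
  obtain ⟨⟨a, ha⟩, ⟨b, hb⟩⟩ := exists_smul_of_span_singleton_eq h
  obtain ⟨⟨a', ha'⟩, ⟨b', hb'⟩⟩ := exists_smul_of_span_singleton_eq h'
  refine span_singleton_eq_of_smul (a * a') (b * b') ?_ ?_
  · conv_lhs => rw [ha, ha']
    simp only [Algebra.smul_def, map_mul]
    ring
  · conv_lhs => rw [hb, hb']
    simp only [Algebra.smul_def, map_mul]
    ring

lemma span1_ffMap (φ : X ⟶ Y) (hφ : φ (genericPoint X) = genericPoint Y) {x : X}
    {f g : Y.functionField} (h : LS.span1 f (φ x) = LS.span1 g (φ x)) :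
    LS.span1 (ffMap φ hφ f) x = LS.span1 (ffMap φ hφ g) x := by
  obtain ⟨⟨a, ha⟩, ⟨b, hb⟩⟩ := exists_smul_of_span_singleton_eq h
  refine span_singleton_eq_of_smul (φ.stalkMap x a) (φ.stalkMap x b) ?_ ?_
  · conv_lhs => rw [ha]
    exact ffMap_smul φ hφ x a g
  · conv_lhs => rw [hb]
    exact ffMap_smul φ hφ x b f

end Span1

/-! ## LSDiv -/

section LSDiv

variable {X : Scheme.{u}} [IsIntegral X]

/-- `GenAt` is an open condition. -/
lemma exists_open_genAt {d : ℕ} (w : Fin (d + 1) → X.functionField) {x : X} {b : Fin (d + 1)}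
    (hb : LS.GenAt w x b) :
    ∃ U : X.Opens, x ∈ U ∧ ∀ y ∈ U, LS.GenAt w y b := by
  obtain ⟨hb0, hspan⟩ := hb
  have hmem : ∀ i, w i / w b ∈ (algebraMap (X.presheaf.stalk x) X.functionField).range := by
    intro i
    have : w i ∈ LS.span w x := Submodule.subset_span ⟨i, rfl⟩
    rw [hspan] at this
    obtain ⟨a, ha⟩ := Submodule.mem_span_singleton.mp this
    refine ⟨a, ?_⟩
    rw [Algebra.smul_def] at ha
    rw [← ha, mul_div_assoc, div_self hb0, mul_one]
  obtain ⟨U, hxU, hU⟩ := exists_open_forall_mem_range_fin (fun i => w i / w b) hmem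
  refine ⟨U, hxU, fun y hy => ⟨hb0, ?_⟩⟩
  apply le_antisymm
  · refine Submodule.span_le.mpr ?_
    rintro _ ⟨i, rfl⟩
    obtain ⟨a, ha⟩ := hU y hy i
    refine Submodule.mem_span_singleton.mpr ⟨a, ?_⟩
    rw [Algebra.smul_def, ha, div_mul_cancel₀ _ hb0]
  · exact Submodule.span_mono (Set.singleton_subset_iff.mpr ⟨b, rfl⟩)

/-- **LS1.** A base point free system has a divisor. -/
theorem lsDiv : Stmt.LSDiv.{u} := by
  intro X _ d w hBPF
  choose b hb using hBPF
  refine ⟨⟨fun x => w (b x), fun x => (hb x).1, ?_⟩, ?_⟩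
  · intro x
    obtain ⟨U, hxU, hU⟩ := exists_open_genAt w (hb x)
    refine ⟨U, hxU, fun y hy => ?_⟩
    have h1 : LS.span w y = LS.span1 (w (b y)) y := (hb y).2
    have h2 : LS.span w y = LS.span1 (w (b x)) y := (hU y hy).2
    exact h1.symm.trans h2
  · intro x
    exact (hb x).2

end LSDiv

/-! ## CDivOps -/

section CDivOps

/-- The `r`-th power of a Cartier divisor. -/
def cdivPow {X : Scheme.{u}} [IsIntegral X] (D : CDiv X) (r : ℕ) : CDiv X where
  gen x := D.gen x ^ r
  gen_ne x := pow_ne_zero r (D.gen_ne x)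
  loc x := by
    obtain ⟨U, hxU, hU⟩ := D.loc x
    exact ⟨U, hxU, fun y hy => span1_pow (hU y hy) r⟩

/-- The product of two Cartier divisors. -/
def cdivMul {X : Scheme.{u}} [IsIntegral X] (D D' : CDiv X) : CDiv X where
  gen x := D.gen x * D'.gen x
  gen_ne x := mul_ne_zero (D.gen_ne x) (D'.gen_ne x)
  loc x := by
    obtain ⟨U, hxU, hU⟩ := D.loc x
    obtain ⟨U', hxU', hU'⟩ := D'.loc x
    exact ⟨U ⊓ U', ⟨hxU, hxU'⟩, fun y hy => span1_mul (hU y hy.1) (hU' y hy.2)⟩

/-- The pull-back of a Cartier divisor along a morphism preserving the generic point. -/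
def cdivPullback {X Y : Scheme.{u}} [IsIntegral X] [IsIntegral Y] (φ : Y ⟶ X)
    (h : φ (genericPoint Y) = genericPoint X) (D : CDiv X) : CDiv Y where
  gen y := ffMap φ h (D.gen (φ y))
  gen_ne y := ffMap_ne_zero φ h (D.gen_ne (φ y))
  loc y := by
    obtain ⟨U, hxU, hU⟩ := D.loc (φ y)
    exact ⟨φ ⁻¹ᵁ U, hxU, fun y' hy' => span1_ffMap φ h (hU (φ y') hy')⟩

/-- Powers, products and pull-backs of Cartier divisors exist. -/
theorem cDivOps : Stmt.CDivOps.{u} := by
  intro X _ D
  refine ⟨fun r => ⟨cdivPow D r, fun x => rfl⟩, fun D' => ⟨cdivMul D D', fun x => rfl⟩, ?_⟩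
  intro Y _ φ h
  exact ⟨cdivPullback φ h D, fun y => rfl⟩

end CDivOps

/-! ## LSDivOps -/

section LSDivOps

variable {X : Scheme.{u}} [IsIntegral X]

/-- If the system `w` generates `O_x · g` at `x` (`g ≠ 0`), then `w i = a i • g` with
`a i ∈ O_x`, `g = ∑ c i • w i`, and some `a i` is a unit. -/
lemma exists_coeffs {d : ℕ} (w : Fin (d + 1) → X.functionField) {x : X} {g : X.functionField}
    (hg : g ≠ 0) (h : LS.span w x = LS.span1 g x) :
    ∃ a c : Fin (d + 1) → X.presheaf.stalk x, (∀ i, w i = a i • g) ∧ g = ∑ i, c i • w i ∧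
      ∃ i, IsUnit (a i) := by
  have h1 : ∀ i, ∃ a : X.presheaf.stalk x, w i = a • g := by
    intro i
    have : w i ∈ LS.span w x := Submodule.subset_span ⟨i, rfl⟩
    rw [h] at this
    obtain ⟨a, ha⟩ := Submodule.mem_span_singleton.mp this
    exact ⟨a, ha.symm⟩
  choose a ha using h1
  have h2 : g ∈ LS.span w x := by
    rw [h]; exact Submodule.mem_span_singleton_self g
  obtain ⟨c, hc⟩ := (Submodule.mem_span_range_iff_exists_fun _).mp h2
  refine ⟨a, c, ha, hc.symm, ?_⟩
  -- `∑ c i * a i = 1`
  have hsum : (∑ i, c i * a i) • g = (1 : X.presheaf.stalk x) • g := by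
    rw [one_smul, Finset.sum_smul]
    conv_rhs => rw [← hc]
    refine Finset.sum_congr rfl fun i _ => ?_
    rw [mul_smul, ← ha i]
  have hone : ∑ i, c i * a i = 1 := by
    apply algebraMap_stalk_injective x
    have := hsum
    rw [Algebra.smul_def, Algebra.smul_def] at this
    exact mul_right_cancel₀ hg this
  by_contra hcon
  push Not at hcon
  have hmem : ∑ i, c i * a i ∈ IsLocalRing.maximalIdeal (X.presheaf.stalk x) :=
    Ideal.sum_mem _ fun i _ => Ideal.mul_mem_left _ _ ((IsLocalRing.mem_maximalIdeal _).mpr (hcon i))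
  rw [hone] at hmem
  exact (Ideal.ne_top_iff_one _).mp (IsLocalRing.maximalIdeal.isMaximal _).ne_top hmem

/-- Compatibility of "divisor of a system" with powers and pull-backs. -/
theorem lsDivOps : Stmt.LSDivOps.{u} := by
  intro X _ d w D hD
  constructor
  · intro r D' hD' x
    rw [hD' x]
    obtain ⟨a, c, ha, -, i₀, hi₀⟩ := exists_coeffs w (D.gen_ne x) (hD x)
    apply le_antisymm
    · refine Submodule.span_le.mpr ?_
      rintro _ ⟨i, rfl⟩
      refine Submodule.mem_span_singleton.mpr ⟨a i ^ r, ?_⟩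
      change a i ^ r • D.gen x ^ r = w i ^ r
      rw [ha i, Algebra.smul_def, Algebra.smul_def, mul_pow, map_pow]
    · rw [LS.span1, Submodule.span_singleton_le_iff_mem]
      obtain ⟨u, hu⟩ := hi₀
      have hw : D.gen x ^ r = ((u⁻¹ : (X.presheaf.stalk x)ˣ) : X.presheaf.stalk x) ^ r • w i₀ ^ r := by
        rw [ha i₀, ← hu, Algebra.smul_def, Algebra.smul_def, mul_pow, ← mul_assoc, ← map_pow,
          ← map_mul, ← mul_pow, Units.inv_mul, one_pow, map_one, one_mul]
      rw [hw]
      exact Submodule.smul_mem _ _ (Submodule.subset_span ⟨i₀, rfl⟩)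
  · intro Y _ φ h D' hD' y
    rw [hD' y]
    obtain ⟨a, c, ha, hc, -⟩ := exists_coeffs w (D.gen_ne (φ y)) (hD (φ y))
    apply le_antisymm
    · refine Submodule.span_le.mpr ?_
      rintro _ ⟨i, rfl⟩
      refine Submodule.mem_span_singleton.mpr ⟨φ.stalkMap y (a i), ?_⟩
      change φ.stalkMap y (a i) • ffMap φ h (D.gen (φ y)) = ffMap φ h (w i)
      rw [← ffMap_smul, ← ha i]
    · rw [LS.span1, Submodule.span_singleton_le_iff_mem]
      have : ffMap φ h (D.gen (φ y)) = ∑ i, φ.stalkMap y (c i) • ffMap φ h (w i) := by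
        conv_lhs => rw [hc]
        rw [map_sum]
        exact Finset.sum_congr rfl fun i _ => ffMap_smul φ h y (c i) (w i)
      rw [this]
      exact Submodule.sum_mem _ fun i _ =>
        Submodule.smul_mem _ _ (Submodule.subset_span ⟨i, rfl⟩)

end LSDivOps

end

end Fermat.Agent.S26.H164
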